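/-
S26 / Sch / AVF : the group functor on `K`-algebras attached to a commutative relative group law.
-/
import Fermat.Agent.S26.Defs
import Fermat.Statements.S26

set_option autoImplicit false

open CategoryTheory CategoryTheory.Limits AlgebraicGeometry NeronModelInfra GoodReductionJacobian

universe u

namespace Fermat.Agent.S26

variable {K : Type u} [Field K]

/-- the structure morphism of `Spec S` -/
noncomputable abbrev strS (K : Type u) [Field K] (S : Type u) [CommRing S] [Algebra K S] :
    Spec (CommRingCat.of S) ⟶ Spec (CommRingCat.of K) :=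
  Spec.map (CommRingCat.ofHom (algebraMap K S))

/-- `Spec` of an algebra homomorphism -/
noncomputable abbrev specA {S S' : Type u} [CommRing S] [Algebra K S] [CommRing S'] [Algebra K S']
    (φ : S →ₐ[K] S') : Spec (CommRingCat.of S') ⟶ Spec (CommRingCat.of S) :=
  Spec.map (CommRingCat.ofHom φ.toRingHom)

theorem specA_str {S S' : Type u} [CommRing S] [Algebra K S] [CommRing S'] [Algebra K S']
    (φ : S →ₐ[K] S') : specA φ ≫ strS K S = strS K S' := by
  rw [strS, specA, ← Spec.map_comp, ← CommRingCat.ofHom_comp]
  congr 2
  exact φ.comp_algebraMap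

variable {A : Scheme.{u}} (f : A ⟶ Spec (CommRingCat.of K)) (L : RelativeGroupLaw K f)
  (hc : L.IsCommutative)

/-- the group of `S`-points, written additively -/
@[reducible] noncomputable def ptGroup (S : Type u) [CommRing S] [Algebra K S] :
    AddCommGroup (SchemeHomOver (strS K S) f) :=
  letI : Group (SchemeHomOver (strS K S) f) := L.pointGroup (strS K S)
  letI : CommGroup (SchemeHomOver (strS K S) f) :=
    { (inferInstance : Group (SchemeHomOver (strS K S) f)) with mul_comm := hc (strS K S) }
  (inferInstance : AddCommGroup (Additive (SchemeHomOver (strS K S) f)))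

/-- the functor of points of `A` on `K`-algebras, with its group structure -/
noncomputable def avf : AVF K where
  pt S _ _ := SchemeHomOver (strS K S) f
  map φ a := schemeHomOverComp (specA φ) (specA_str φ) a
  map_id a := by
    apply Subtype.ext
    simp [specA]
  map_comp ψ φ a := by
    apply Subtype.ext
    show specA (ψ.comp φ) ≫ a.1 = specA ψ ≫ specA φ ≫ a.1
    rw [← Category.assoc, specA, specA, specA, ← Spec.map_comp, ← CommRingCat.ofHom_comp]
    rfl
  grp S _ _ := ptGroup f L hc S
  map_add φ a b := L.mul_natural _ _ (specA φ) (specA_str φ) a b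

theorem avf_add {S : Type u} [CommRing S] [Algebra K S] (a b : (avf f L hc).pt S) :
    a + b = L.mul (strS K S) a b := rfl

theorem avf_zero {S : Type u} [CommRing S] [Algebra K S] :
    (0 : (avf f L hc).pt S) = L.one (strS K S) := rfl

theorem avf_map_coe {S S' : Type u} [CommRing S] [Algebra K S] [CommRing S'] [Algebra K S']
    (φ : S →ₐ[K] S') (a : (avf f L hc).pt S) :
    ((avf f L hc).map φ a : SchemeHomOver (strS K S') f).1 =
      specA φ ≫ (a : SchemeHomOver (strS K S) f).1 := rfl

end Fermat.Agent.S26
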