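/-
S26 / Sch / Chart (SCH-3/4) : charts of `A`, i.e. open immersions `Spec R → A` over `K`.
-/
import Fermat.Agent.S26.Sch.AVF
import Fermat.Agent.S26.AV.Geo

set_option autoImplicit false

open CategoryTheory CategoryTheory.Limits AlgebraicGeometry NeronModelInfra GoodReductionJacobian

universe u

namespace Fermat.Agent.S26

variable {K : Type u} [Field K] {A : Scheme.{u}} (f : A ⟶ Spec (CommRingCat.of K))
  (L : RelativeGroupLaw K f) (hc : L.IsCommutative)

section hom

variable {f L hc}
variable {S S' : Type u} [CommRing S] [Algebra K S] [CommRing S'] [Algebra K S']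

/-- the morphism of schemes underlying a point -/
noncomputable def hom (u : (avf f L hc).pt S) : Spec (CommRingCat.of S) ⟶ A :=
  (u : SchemeHomOver (strS K S) f).1

theorem hom_comp (u : (avf f L hc).pt S) : hom u ≫ f = strS K S :=
  (u : SchemeHomOver (strS K S) f).2

theorem hom_map (φ : S →ₐ[K] S') (u : (avf f L hc).pt S) :
    hom ((avf f L hc).map φ u) = specA φ ≫ hom u := rfl

theorem hom_ext {u u' : (avf f L hc).pt S} (h : hom u = hom u') : u = u' := Subtype.ext h

/-- a point from a morphism -/
noncomputable def mkPt (φ : Spec (CommRingCat.of S) ⟶ A) (h : φ ≫ f = strS K S) :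
    (avf f L hc).pt S := (⟨φ, h⟩ : SchemeHomOver (strS K S) f)

@[simp] theorem hom_mkPt (φ : Spec (CommRingCat.of S) ⟶ A) (h : φ ≫ f = strS K S) :
    hom (mkPt (L := L) (hc := hc) φ h) = φ := rfl

/-- morphisms `Spec S → Spec R` over `K` are algebra homomorphisms -/
theorem exists_specA_eq {R : Type u} [CommRing R] [Algebra K R]
    (φ : Spec (CommRingCat.of S) ⟶ Spec (CommRingCat.of R)) (h : φ ≫ strS K R = strS K S) :
    ∃ w : R →ₐ[K] S, specA w = φ := by
  have hφ : Spec.map (Spec.preimage φ) = φ := Spec.map_preimage φ
  have hcomm : (Spec.preimage φ).hom.comp (algebraMap K R) = algebraMap K S := by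
    have h1 : Spec.map (CommRingCat.ofHom (algebraMap K R) ≫ Spec.preimage φ) =
        Spec.map (CommRingCat.ofHom (algebraMap K S)) := by
      rw [Spec.map_comp, hφ]
      exact h
    exact congrArg CommRingCat.Hom.hom (Spec.map_injective h1)
  refine ⟨{ (Spec.preimage φ).hom with commutes' := fun c => RingHom.congr_fun hcomm c }, ?_⟩
  exact hφ

theorem specA_injective {R : Type u} [CommRing R] [Algebra K R] {w w' : R →ₐ[K] S}
    (h : specA w = specA w') : w = w' := by
  have h1 := congrArg CommRingCat.Hom.hom (Spec.map_injective h)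
  exact AlgHom.ext fun x => RingHom.congr_fun h1 x

/-- the image of the point of `Spec k` under `Spec e` is `ker e` -/
theorem specA_closedPoint {k : Type u} [Field k] [Algebra K k] (e : S →ₐ[K] k)
    (x : Spec (CommRingCat.of k)) :
    ((specA e).base x : PrimeSpectrum S).asIdeal = RingHom.ker e := by
  have hx : (x : PrimeSpectrum k).asIdeal = ⊥ :=
    haveI := (x : PrimeSpectrum k).isPrime
    Ideal.eq_bot_of_prime (x : PrimeSpectrum k).asIdeal
  show Ideal.comap e.toRingHom (x : PrimeSpectrum k).asIdeal = RingHom.ker e
  rw [hx]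
  rfl

end hom

section chart

variable {f L hc}
variable {R : Type u} [CommRing R] [Algebra K R] (j : (avf f L hc).pt R)
  {S : Type u} [CommRing S] [Algebra K S]

/-- **universal property of a chart** (`IsOpenImmersion.lift`, `exists_specA_eq`) -/
theorem chart_lift [IsOpenImmersion (hom j)] (u : (avf f L hc).pt S)
    (h : Set.range (hom u).base ⊆ Set.range (hom j).base) :
    ∃ w : R →ₐ[K] S, (avf f L hc).map w j = u := by
  have hl : IsOpenImmersion.lift (hom j) (hom u) h ≫ hom j = hom u :=
    IsOpenImmersion.lift_fac _ _ _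
  have hK : IsOpenImmersion.lift (hom j) (hom u) h ≫ strS K R = strS K S := by
    rw [← hom_comp j, ← Category.assoc, hl, hom_comp]
  obtain ⟨w, hw⟩ := exists_specA_eq _ hK
  exact ⟨w, hom_ext (by rw [hom_map, hw, hl])⟩

/-- a chart is a monomorphism -/
theorem chart_mono [IsOpenImmersion (hom j)] (w w' : R →ₐ[K] S)
    (h : (avf f L hc).map w j = (avf f L hc).map w' j) : w = w' := by
  have h1 : specA w ≫ hom j = specA w' ≫ hom j := by
    rw [← hom_map, ← hom_map, h]
  exact specA_injective ((cancel_mono (hom j)).1 h1)

/-- a chart is open.  PROOF: `x := ker e ∈ Spec S` is mapped by `u` into the open set `range j`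
(`hom_map`, `h`), take a basic open `x ∈ D(s) ⊆ u⁻¹(range j)` (`PrimeSpectrum.isBasis_basic_opens`), the range of
`Spec S_s → Spec S` is `D(s)` (`PrimeSpectrum.localization_away_comap_range`), `chart_lift`. -/
theorem chart_zar [IsOpenImmersion (hom j)] (u : (avf f L hc).pt S) (k : Type u) [Field k]
    [Algebra K k] (e : S →ₐ[K] k) (w₀ : R →ₐ[K] k)
    (h : (avf f L hc).map e u = (avf f L hc).map w₀ j) :
    ∃ s : S, e s ≠ 0 ∧ ∃ w : R →ₐ[K] Localization.Away s,
      (avf f L hc).map (Algebra.ofId S (Localization.Away s) |>.restrictScalars K) u =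
        (avf f L hc).map w j := by
  have hopen : IsOpen (Set.range (hom j).base) := (hom j).isOpenEmbedding.isOpen_range
  have hU : IsOpen ((hom u).base ⁻¹' Set.range (hom j).base) :=
    hopen.preimage (hom u).continuous
  set pt : Spec (CommRingCat.of k) := IsLocalRing.closedPoint k with hpt
  have hx : (specA e).base pt ∈ (hom u).base ⁻¹' Set.range (hom j).base := by
    refine ⟨(specA w₀).base pt, ?_⟩
    have h1 : specA w₀ ≫ hom j = specA e ≫ hom u := by
      rw [← hom_map, ← hom_map, h]
    have h2 := congrArg (fun g : Spec (CommRingCat.of k) ⟶ A => g.base pt) h1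
    simpa using h2
  obtain ⟨V, ⟨s, rfl⟩, hxs, hsU⟩ :=
    PrimeSpectrum.isTopologicalBasis_basic_opens.exists_subset_of_mem_open hx hU
  refine ⟨s, ?_, ?_⟩
  · intro hs
    have h1 : s ∈ ((specA e).base pt : PrimeSpectrum S).asIdeal := by
      rw [specA_closedPoint]
      exact hs
    exact hxs h1
  · obtain ⟨w, hw⟩ := chart_lift j
      ((avf f L hc).map (Algebra.ofId S (Localization.Away s) |>.restrictScalars K) u) (by
        rintro _ ⟨y, rfl⟩
        rw [hom_map]
        have h1 : (specA (Algebra.ofId S (Localization.Away s) |>.restrictScalars K)).base y ∈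
            (PrimeSpectrum.basicOpen s : Set (PrimeSpectrum S)) := by
          rw [← PrimeSpectrum.localization_away_comap_range (Localization.Away s) s]
          exact ⟨y, rfl⟩
        exact hsU h1)
    exact ⟨w, hw.symm⟩

/-- a morphism from the spectrum of a local ring factors through every open set containing the image of
the closed point -/
theorem chart_lift_local [IsOpenImmersion (hom j)] [IsLocalRing S] (u : (avf f L hc).pt S)
    (h : (hom u).base (IsLocalRing.closedPoint S) ∈ Set.range (hom j).base) :
    ∃ w : R →ₐ[K] S, (avf f L hc).map w j = u := by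
  refine chart_lift j u ?_
  rintro _ ⟨y, rfl⟩
  have hopen : IsOpen (Set.range (hom j).base) := (hom j).isOpenEmbedding.isOpen_range
  exact ((IsLocalRing.specializes_closedPoint (R := S) y).map (hom u).continuous).mem_open hopen h

/-- the kernel of the lift of a field valued point -/
theorem chart_ker {k : Type u} [Field k] [Algebra K k] (w : R →ₐ[K] k) (x : Spec (CommRingCat.of k))
    (p : PrimeSpectrum R)
    (h : (hom ((avf f L hc).map w j)).base x = (hom j).base p) [IsOpenImmersion (hom j)] :
    RingHom.ker w = p.asIdeal := by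
  rw [hom_map] at h
  have h1 : (hom j).base ((specA w).base x) = (hom j).base p := by
    simpa using h
  have h2 : (specA w).base x = p := (hom j).isOpenEmbedding.injective h1
  rw [← specA_closedPoint w x, h2]

end chart

end Fermat.Agent.S26
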