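/-
S26 / Sch / Ded (SCH-8) : a point of `A` with values in the fraction field of a Dedekind domain `B`
extends to a `B`-point (valuative criterion + spreading out + gluing).
-/
import Fermat.Agent.S26.Sch.AVF

set_option autoImplicit false

open CategoryTheory CategoryTheory.Limits AlgebraicGeometry NeronModelInfra GoodReductionJacobian

universe u

namespace Fermat.Agent.S26

/-- compatibility of `fromSpecStalkOfMem` with specialisation -/
theorem ded_fromSpecStalkOfMem_specializes {X Y : Scheme.{u}} (g : X.PartialMap Y) {x y : X}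
    (h : y ⤳ x) (hx : x ∈ g.domain) (hy : y ∈ g.domain) :
    Spec.map (X.presheaf.stalkSpecializes h) ≫ g.fromSpecStalkOfMem hx =
      g.fromSpecStalkOfMem hy := by
  unfold Scheme.PartialMap.fromSpecStalkOfMem
  rw [← Category.assoc]
  congr 1
  rw [← cancel_mono g.domain.ι, Category.assoc, Scheme.Opens.fromSpecStalkOfMem_ι,
    Scheme.Opens.fromSpecStalkOfMem_ι, Scheme.SpecMap_stalkSpecializes_fromSpecStalk]

/-- **extension of a point of the function field** -/
theorem ded_extend {X A S : Scheme.{u}} [IsIntegral X] [S.IsSeparated] (sX : X ⟶ S) (f : A ⟶ S)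
    [IsProper f] (hval : ∀ x : X, ValuationRing (X.presheaf.stalk x))
    (a : Spec X.functionField ⟶ A) (ha : a ≫ f = X.fromSpecStalk _ ≫ sX) :
    ∃ b : X ⟶ A, b ≫ f = sX ∧ X.fromSpecStalk (genericPoint X) ≫ b = a := by
  have hAsep : A.IsSeparated := ⟨by
    rw [← terminal.comp_from f]
    infer_instance⟩
  set ρ : X ⤏ A := Scheme.RationalMap.ofFunctionField sX f a ha with hρ
  have hρa : ρ.fromFunctionField = a := Scheme.RationalMap.fromFunctionField_ofFunctionField _ _ _ _
  have hdom : ρ.domain = ⊤ := by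
    rw [eq_top_iff]
    intro x _
    have := hval x
    have hdomx : IsDomain (X.presheaf.stalk x) := inferInstance
    have hspec : genericPoint X ⤳ x := (genericPoint_spec X).specializes trivial
    have halg : CommRingCat.ofHom (algebraMap (X.presheaf.stalk x) X.functionField)
        = X.presheaf.stalkSpecializes hspec := rfl
    have hsq : a ≫ f = Spec.map (CommRingCat.ofHom
        (algebraMap (X.presheaf.stalk x) X.functionField)) ≫ (X.fromSpecStalk x ≫ sX) := by
      rw [ha, halg, ← Category.assoc, Scheme.SpecMap_stalkSpecializes_fromSpecStalk]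
    have hex : ValuativeCriterion.Existence f := by
      have h1 : UniversallyClosed f := inferInstance
      rw [UniversallyClosed.eq_valuativeCriterion] at h1
      exact h1.1
    obtain ⟨l, hl₁, hl₂⟩ : ∃ l : Spec (X.presheaf.stalk x) ⟶ A,
        Spec.map (X.presheaf.stalkSpecializes hspec) ≫ l = a ∧
          l ≫ f = X.fromSpecStalk x ≫ sX := by
      obtain ⟨l, hl₁, hl₂⟩ := (hex
        { R := X.presheaf.stalk x, K := X.functionField, commSq := ⟨hsq⟩, .. }).exists_lift
      exact ⟨l, hl₁, hl₂⟩
    set g := Scheme.PartialMap.ofFromSpecStalk sX f l hl₂ with hg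
    have hxg : x ∈ g.domain := Scheme.PartialMap.mem_domain_ofFromSpecStalk sX f l hl₂
    have hgl : g.fromSpecStalkOfMem hxg = l :=
      Scheme.PartialMap.fromSpecStalkOfMem_ofFromSpecStalk sX f l hl₂
    refine Scheme.RationalMap.mem_domain.mpr ⟨g, hxg, ?_⟩
    apply Scheme.RationalMap.eq_of_fromFunctionField_eq
    rw [hρa, Scheme.RationalMap.fromFunctionField_toRationalMap, ← hl₁, ← hgl]
    exact (ded_fromSpecStalkOfMem_specializes g hspec hxg _).symm
  let _ : X.Over S := ⟨sX⟩
  let _ : A.Over S := ⟨f⟩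
  have hρover : ρ.IsOver S := Scheme.RationalMap.isOver_iff.mpr
    (Scheme.RationalMap.equivFunctionField sX f ⟨a, ha⟩).2
  set p := ρ.toPartialMap with hp
  have hpover : p.IsOver S := inferInstance
  have hpd : p.domain = ⊤ := hdom
  set b : X ⟶ A := X.topIso.inv ≫ (X.isoOfEq hpd.symm).hom ≫ p.hom with hb
  have hbp : b.toPartialMap = p := by
    apply Scheme.PartialMap.ext _ _ hpd.symm
    simp [hb]
    rfl
  refine ⟨b, ?_, ?_⟩
  · have h1 : p.hom ≫ f = p.domain.ι ≫ sX := hpover.comp_over
    rw [hb, Category.assoc, Category.assoc, h1]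
    simp
  · rw [← hρa, ← ρ.toRationalMap_toPartialMap, ← hp, ← hbp,
      Scheme.RationalMap.fromFunctionField_toRationalMap]
    exact (Scheme.PartialMap.fromSpecStalkOfMem_toPartialMap b _).symm

/-- the localisation of a Dedekind domain at a prime is a valuation ring -/
theorem ded_valuationRing_of_atPrime (B : Type u) [CommRing B] [IsDedekindDomain B] (P : Ideal B)
    [P.IsPrime] (Bp : Type u) [CommRing Bp] [IsDomain Bp] [Algebra B Bp]
    [IsLocalization.AtPrime Bp P] : ValuationRing Bp := by
  by_cases hP : P = ⊥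
  · subst hP
    rw [ValuationRing.iff_dvd_total]
    refine ⟨fun a b => ?_⟩
    by_cases ha : a = 0
    · right
      rw [ha]
      exact dvd_zero b
    · left
      obtain ⟨c, s, hc⟩ := IsLocalization.exists_mk'_eq (⊥ : Ideal B).primeCompl a
      have hc0 : c ≠ 0 := by
        rintro rfl
        apply ha
        rw [← hc, IsLocalization.mk'_zero]
      have hu : IsUnit (algebraMap B Bp c) :=
        IsLocalization.map_units Bp (⟨c, hc0⟩ : (⊥ : Ideal B).primeCompl)
      have h1 : a * algebraMap B Bp s = algebraMap B Bp c := by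
        rw [← hc]
        exact IsLocalization.mk'_spec _ _ _
      have hua : IsUnit a := isUnit_of_mul_isUnit_left (h1 ▸ hu)
      exact hua.dvd
  · have := IsLocalization.AtPrime.isDiscreteValuationRing_of_dedekind_domain B hP Bp
    infer_instance

theorem ded_valuationRing_stalk (B : Type u) [CommRing B] [IsDedekindDomain B]
    (x : Spec (CommRingCat.of B)) :
    ValuationRing ((Spec (CommRingCat.of B)).presheaf.stalk x) := by
  have h1 := StructureSheaf.IsLocalization.to_stalk B x
  have h2 : (PrimeSpectrum.asIdeal (R := B) x).IsPrime := PrimeSpectrum.isPrime (R := B) x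
  have h3 : IsDomain ((Spec (CommRingCat.of B)).presheaf.stalk x) := inferInstance
  exact @ded_valuationRing_of_atPrime B _ _ (PrimeSpectrum.asIdeal (R := B) x) h2
    ((Spec (CommRingCat.of B)).presheaf.stalk x) _ h3 (StructureSheaf.stalkAlgebra B x) h1

/-- two fraction rings are isomorphic (formulated with ring homomorphisms only) -/
theorem ded_fractionRing_aux (B F Q : Type u) [CommRing B] [CommRing F] [Algebra B F]
    [IsFractionRing B F] [CommRing Q] [Algebra B Q] [IsFractionRing B Q] :
    ∃ (φ : F →+* Q) (ψ : Q →+* F), ψ.comp φ = RingHom.id F ∧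
      φ.comp (algebraMap B F) = algebraMap B Q ∧ ψ.comp (algebraMap B Q) = algebraMap B F := by
  let e : F ≃ₐ[B] Q := IsLocalization.algEquiv (nonZeroDivisors B) F Q
  refine ⟨(e : F →+* Q), (e.symm : Q →+* F), ?_, ?_, ?_⟩
  · ext k
    simp
  · ext k
    simp
  · ext k
    simp

theorem ded_cat_aux (B F : Type u) [CommRing B] [CommRing F] [Algebra B F]
    [IsFractionRing B F] (Q : CommRingCat.{u}) (ι : CommRingCat.of B ⟶ Q)
    (h : @IsFractionRing B _ Q _ ι.hom.toAlgebra) :
    ∃ (φ : CommRingCat.of F ⟶ Q) (ψ : Q ⟶ CommRingCat.of F), φ ≫ ψ = 𝟙 _ ∧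
      CommRingCat.ofHom (algebraMap B F) ≫ φ = ι ∧
      ι ≫ ψ = CommRingCat.ofHom (algebraMap B F) := by
  letI := ι.hom.toAlgebra
  obtain ⟨φ, ψ, h1, h2, h3⟩ := ded_fractionRing_aux B F Q
  refine ⟨CommRingCat.ofHom φ, CommRingCat.ofHom ψ, ?_, ?_, ?_⟩
  · apply CommRingCat.hom_ext
    exact h1
  · apply CommRingCat.hom_ext
    exact h2
  · apply CommRingCat.hom_ext
    exact h3

theorem ded_functionField_aux (B F : Type u) [CommRing B] [IsDomain B] [CommRing F] [Algebra B F]
    [IsFractionRing B F] :
    ∃ (φ : CommRingCat.of F ⟶ (Spec (CommRingCat.of B)).functionField)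
      (ψ : (Spec (CommRingCat.of B)).functionField ⟶ CommRingCat.of F), φ ≫ ψ = 𝟙 _ ∧
      Spec.map φ ≫ Spec.map (CommRingCat.ofHom (algebraMap B F)) =
        (Spec (CommRingCat.of B)).fromSpecStalk (genericPoint (Spec (CommRingCat.of B))) ∧
      Spec.map ψ ≫ (Spec (CommRingCat.of B)).fromSpecStalk (genericPoint (Spec (CommRingCat.of B)))
        = Spec.map (CommRingCat.ofHom (algebraMap B F)) := by
  obtain ⟨ι, hη, hfrac⟩ : ∃ ι : CommRingCat.of B ⟶ (Spec (CommRingCat.of B)).functionField,
      (Spec (CommRingCat.of B)).fromSpecStalk (genericPoint (Spec (CommRingCat.of B))) = Spec.map ι ∧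
      @IsFractionRing B _ (Spec (CommRingCat.of B)).functionField _ ι.hom.toAlgebra :=
    ⟨StructureSheaf.toStalk B (genericPoint (Spec (CommRingCat.of B))),
      Spec.fromSpecStalk_eq' _ _, functionField_isFractionRing_of_affine (CommRingCat.of B)⟩
  obtain ⟨φ, ψ, h1, h2, h3⟩ := ded_cat_aux B F (Spec (CommRingCat.of B)).functionField ι hfrac
  refine ⟨φ, ψ, h1, ?_, ?_⟩
  · rw [← Spec.map_comp, h2, hη]
  · rw [hη, ← Spec.map_comp, h3]

theorem ded_spec_extend {K : Type u} [Field K] {A : Scheme.{u}} (f : A ⟶ Spec (CommRingCat.of K))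
    [IsProper f] (B F : Type u) [CommRing B] [IsDedekindDomain B] [Algebra K B]
    [Field F] [Algebra K F] [Algebra B F] [IsScalarTower K B F] [IsFractionRing B F]
    (a : Spec (CommRingCat.of F) ⟶ A) (ha : a ≫ f = strS K F) :
    ∃ b : Spec (CommRingCat.of B) ⟶ A, b ≫ f = strS K B ∧
      Spec.map (CommRingCat.ofHom (algebraMap B F)) ≫ b = a := by
  obtain ⟨φ, ψ, h1, h2, h3⟩ := ded_functionField_aux B F
  have hK : Spec.map (CommRingCat.ofHom (algebraMap B F)) ≫ strS K B = strS K F := by
    rw [strS, strS, ← Spec.map_comp, ← CommRingCat.ofHom_comp,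
      ← IsScalarTower.algebraMap_eq K B F]
  have ha'f : (Spec.map φ ≫ a) ≫ f = (Spec (CommRingCat.of B)).fromSpecStalk _ ≫ strS K B := by
    rw [Category.assoc, ha, ← h2, Category.assoc, hK]
  obtain ⟨b, hb1, hb2⟩ := ded_extend (strS K B) f (ded_valuationRing_stalk B) _ ha'f
  refine ⟨b, hb1, ?_⟩
  rw [← h3, Category.assoc, hb2, ← Category.assoc, ← Spec.map_comp, h1, Spec.map_id,
    Category.id_comp]

variable {K : Type u} [Field K] {A : Scheme.{u}} (f : A ⟶ Spec (CommRingCat.of K))
  (L : RelativeGroupLaw K f) (hc : L.IsCommutative)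

/-- **SCH-8**.  `X = Spec B` is integral.  A point `Spec F → A` gives a rational map `X ⤏ A`
(`Scheme.RationalMap.ofFunctionField`, after identifying `F` with `X.functionField`, or directly
`Scheme.PartialMap.ofFromSpecStalk` at the generic point).  Every `x : X` lies in its domain of definition
(`Scheme.RationalMap.mem_domain`): the stalk `B_x` is a field or a DVR = a valuation ring of `F`, the
valuative criterion (`IsProper.eq_valuativeCriterion`, `ValuativeCriterion.Existence`) extends
`Spec F → A` to `Spec B_x → A`, `Scheme.PartialMap.ofFromSpecStalk` spreads it out to a neighbourhood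
of `x`, and the two rational maps agree (`Scheme.RationalMap.eq_of_fromFunctionField_eq`).
`Scheme.RationalMap.toPartialMap` (`X` reduced, `A` separated) is then defined on `⊤`. -/
theorem avf_ded [IsProper f] (B F : Type u) [CommRing B] [IsDedekindDomain B] [Algebra K B]
    [Field F] [Algebra K F] [Algebra B F] [IsScalarTower K B F] [IsFractionRing B F] :
    Function.Surjective ((avf f L hc).map (IsScalarTower.toAlgHom K B F)) := by
  intro a
  obtain ⟨b, hb1, hb2⟩ := ded_spec_extend f B F a.1 a.2
  exact ⟨⟨b, hb1⟩, Subtype.ext hb2⟩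

end Fermat.Agent.S26
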