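/-
S26 / Sch / EtChart (SCH-3) : an étale chart around every point.
-/
import Fermat.Agent.S26.Sch.Chart

set_option autoImplicit false

open CategoryTheory CategoryTheory.Limits AlgebraicGeometry NeronModelInfra GoodReductionJacobian

universe u

namespace Fermat.Agent.S26

variable {K : Type u} [Field K] {A : Scheme.{u}} (f : A ⟶ Spec (CommRingCat.of K))

/-- an étale chart around the point `x` (no reference to the group law: `j` is a point of
`(avf f L hc).pt R` for every `L`, `hc`, by definition) -/
structure EtChart (g : ℕ) (x : A) where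
  R : Type u
  [cr : CommRing R]
  [alg : Algebra K R]
  [ft : Algebra.FiniteType K R]
  j : SchemeHomOver (strS K R) f
  opn : IsOpenImmersion j.1
  mem : x ∈ Set.range j.1.base
  y : MvPolynomial (Fin g) K →ₐ[K] R
  et : y.Etale

attribute [instance] EtChart.cr EtChart.alg EtChart.ft EtChart.opn

/-- **SCH-3**.  `SmoothOfRelativeDimension.exists_isStandardSmoothOfRelativeDimension x` gives affine opens
`U ⊆ Spec K`, `x ∈ V ⊆ A`, `e : V ≤ f ⁻¹ᵁ U` with `(f.appLE U V e).hom` standard smooth of relative dimension `g`.
`U = ⊤` (nonempty open subset of a one point space).  `R := Γ(A, V)` with the algebra structure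
`K ≅ Γ(Spec K, ⊤) → Γ(A, V)`, `j := hV.fromSpec` (`IsAffineOpen.SpecMap_appLE_fromSpec`,
`IsAffineOpen.range_fromSpec`).  `Algebra.IsStandardSmoothOfRelativeDimension g K R` (respects isomorphisms), then
`Algebra.IsStandardSmoothOfRelativeDimension.exists_etale_mvPolynomial`, finite type from finite presentation. -/
theorem nonempty_etChart (g : ℕ) [SmoothOfRelativeDimension g f] (x : A) :
    Nonempty (EtChart f g x) := by
  obtain ⟨U, hU, V, hV, hx, e, hf⟩ :=
    SmoothOfRelativeDimension.exists_isStandardSmoothOfRelativeDimension (n := g) (f := f) x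
  have hUtop : U = ⊤ := by
    rw [eq_top_iff]
    intro z _
    have h1 : f.base x ∈ U := e hx
    have h2 : z = f.base x := Subsingleton.elim (α := PrimeSpectrum K) _ _
    rw [h2]
    exact h1
  subst hUtop
  -- the algebra structure
  let e' : K ≃+* Γ(Spec (CommRingCat.of K), ⊤) :=
    (Scheme.ΓSpecIso (CommRingCat.of K)).symm.commRingCatIsoToRingEquiv
  let φ : K →+* Γ(A, V) := (f.appLE ⊤ V e).hom.comp e'.toRingHom
  have hφ : φ.IsStandardSmoothOfRelativeDimension g :=
    (RingHom.isStandardSmoothOfRelativeDimension_respectsIso (n := g)).2 _ e' hf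
  let _ : Algebra K Γ(A, V) := φ.toAlgebra
  have hss : Algebra.IsStandardSmoothOfRelativeDimension g K Γ(A, V) := hφ
  have hss' : Algebra.IsStandardSmooth K Γ(A, V) :=
    Algebra.IsStandardSmoothOfRelativeDimension.isStandardSmooth g
  have hft : Algebra.FiniteType K Γ(A, V) := inferInstance
  obtain ⟨y, hy⟩ := Algebra.IsStandardSmoothOfRelativeDimension.exists_etale_mvPolynomial g K Γ(A, V)
  have hcomp : hV.fromSpec ≫ f = strS K Γ(A, V) := by
    rw [← IsAffineOpen.SpecMap_appLE_fromSpec f hU hV e, IsAffineOpen.fromSpec_top,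
      Scheme.isoSpec_Spec_inv, ← Spec.map_comp]
    rfl
  exact ⟨{ R := Γ(A, V)
           j := ⟨hV.fromSpec, hcomp⟩
           opn := hV.isOpenImmersion_fromSpec
           mem := by
             have h := hV.range_fromSpec
             have hx' : x ∈ (V : Set A) := hx
             rw [← h] at hx'
             exact hx'
           y := y
           et := hy }⟩

end Fermat.Agent.S26
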