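/-
S26 / Sch / IrrTop (SCH-2a) : a connected noetherian Jacobson space which is homogeneous on closed points is
irreducible.  PURE TOPOLOGY.
-/
import Mathlib

set_option autoImplicit false

namespace Fermat.Agent.S26

open TopologicalSpace

/-- **SCH-2a**.  PROOF.  The set `𝒵 = irreducibleComponents X` is finite
(`NoetherianSpace.finite_irreducibleComponents`), its members are closed, irreducible, and cover `X`.
A homeomorphism permutes `𝒵` (image of a maximal irreducible set is one).  For a closed point `x` let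
`n x = #{Z ∈ 𝒵 | x ∈ Z}`; `n (t x) = n x`, so `n` is constant on closed points.
`NoetherianSpace.exists_isOpen_nonempty_subset_irreducibleComponent` : every `Z ∈ 𝒵` contains a nonempty open subset `U` of
`X` (check its exact statement; if necessary shrink: `Z \ ⋃ (other components)` is open, nonempty); a point of
`Z \ ⋃_{Z' ≠ Z} Z'` lies on exactly one component; this set is open nonempty hence contains a closed point of `X`
(`nonempty_inter_closedPoints`).  So `n = 1` on closed points.  If `Z ≠ Z'` in `𝒵` and `Z ∩ Z' ≠ ∅`, this closed set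
contains a closed point with `n ≥ 2`: contradiction.  So the components are pairwise disjoint, closed, finite in number: each
is clopen (complement = finite union of closed sets).  `X` is connected (`isClopen_iff`): `Z = univ`. -/
theorem irrTop_irreducibleSpace {X : Type*} [TopologicalSpace X] [NoetherianSpace X]
    [JacobsonSpace X] [ConnectedSpace X]
    (h : ∀ x y : X, IsClosed {x} → IsClosed {y} → ∃ t : X ≃ₜ X, t x = y) : IrreducibleSpace X := by
  classical
  have hfin : (irreducibleComponents X).Finite := NoetherianSpace.finite_irreducibleComponents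
  have hclosedU : ∀ Z : Set X, IsClosed (⋃₀ (irreducibleComponents X \ {Z})) := by
    intro Z
    rw [Set.sUnion_eq_biUnion]
    exact hfin.sdiff.isClosed_biUnion fun W hW => isClosed_of_mem_irreducibleComponents W hW.1
  -- a closed point lying on exactly one component
  obtain ⟨x₁⟩ : Nonempty X := inferInstance
  set Z₀ := irreducibleComponent x₁ with hZ₀def
  have hZ₀ : Z₀ ∈ irreducibleComponents X := irreducibleComponent_mem_irreducibleComponents x₁
  have hne : ((⋃₀ (irreducibleComponents X \ {Z₀}))ᶜ).Nonempty := by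
    have hZ := closure_sUnion_irreducibleComponents_sdiff_singleton hfin Z₀ hZ₀
    by_contra hcon
    rw [Set.not_nonempty_iff_eq_empty] at hcon
    rw [hcon, closure_empty] at hZ
    exact hZ₀.1.nonempty.ne_empty hZ.symm
  obtain ⟨x₀, hx₀U, hx₀c⟩ := nonempty_inter_closedPoints hne (hclosedU Z₀).isOpen_compl.isLocallyClosed
  have hx₀ : ∀ Z ∈ irreducibleComponents X, x₀ ∈ Z → Z = Z₀ := by
    intro Z hZ hxZ
    by_contra hcon
    exact hx₀U ⟨Z, ⟨hZ, hcon⟩, hxZ⟩
  -- every closed point lies on at most one component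
  have huniq : ∀ y : X, IsClosed {y} → ∀ Z ∈ irreducibleComponents X,
      ∀ Z' ∈ irreducibleComponents X, y ∈ Z → y ∈ Z' → Z = Z' := by
    intro y hy Z hZ Z' hZ' hyZ hyZ'
    obtain ⟨t, ht⟩ := h x₀ y hx₀c hy
    have hpre : ∀ W ∈ irreducibleComponents X, y ∈ W → t ⁻¹' W = Z₀ := by
      intro W hW hyW
      refine hx₀ _ (preimage_mem_irreducibleComponents hW t.isOpenEmbedding ?_) ?_
      · exact ⟨y, hyW, ⟨x₀, ht⟩⟩
      · show t x₀ ∈ W
        rw [ht]
        exact hyW
    have h1 := hpre Z hZ hyZ
    have h2 := hpre Z' hZ' hyZ'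
    exact t.surjective.preimage_injective (h1.trans h2.symm)
  -- the components are pairwise disjoint
  have hdisj : ∀ Z ∈ irreducibleComponents X, ∀ Z' ∈ irreducibleComponents X, Z ≠ Z' →
      Z ∩ Z' = ∅ := by
    intro Z hZ Z' hZ' hZZ'
    by_contra hcon
    have hne' : (Z ∩ Z').Nonempty := Set.nonempty_iff_ne_empty.2 hcon
    have hcl : IsClosed (Z ∩ Z') := (isClosed_of_mem_irreducibleComponents Z hZ).inter
      (isClosed_of_mem_irreducibleComponents Z' hZ')
    obtain ⟨y, hyZZ', hyc⟩ := nonempty_inter_closedPoints hne' hcl.isLocallyClosed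
    exact hZZ' (huniq y hyc Z hZ Z' hZ' hyZZ'.1 hyZZ'.2)
  -- `Z₀` is clopen
  have hcompl : Z₀ = (⋃₀ (irreducibleComponents X \ {Z₀}))ᶜ := by
    ext y
    constructor
    · rintro hy ⟨W, ⟨hW, hWZ⟩, hyW⟩
      have := hdisj W hW Z₀ hZ₀ hWZ
      exact (Set.eq_empty_iff_forall_notMem.1 this y) ⟨hyW, hy⟩
    · intro hy
      have hyu : y ∈ ⋃₀ irreducibleComponents X := by
        rw [sUnion_irreducibleComponents]
        trivial
      obtain ⟨W, hW, hyW⟩ := hyu
      by_cases hWZ : W = Z₀
      · rw [← hWZ]
        exact hyW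
      · exact absurd ⟨W, ⟨hW, hWZ⟩, hyW⟩ hy
  have hclopen : IsClopen Z₀ := by
    refine ⟨isClosed_of_mem_irreducibleComponents Z₀ hZ₀, ?_⟩
    rw [hcompl]
    exact (hclosedU Z₀).isOpen_compl
  rcases isClopen_iff.1 hclopen with h0 | h1
  · exact absurd h0 hZ₀.1.nonempty.ne_empty
  · rw [irreducibleSpace_def, Set.top_eq_univ, ← h1]
    exact hZ₀.1

end Fermat.Agent.S26
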