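/-
S26 / Sch / Transl (SCH-1) : translations by `K`-points.
-/
import Fermat.Agent.S26.Sch.AVF
import Fermat.Agent.S26.AV.Geo

set_option autoImplicit false

open CategoryTheory CategoryTheory.Limits AlgebraicGeometry NeronModelInfra GoodReductionJacobian

universe u

namespace Fermat.Agent.S26

variable {K : Type u} [Field K] {A : Scheme.{u}} (f : A ⟶ Spec (CommRingCat.of K))
  (L : RelativeGroupLaw K f) (hc : L.IsCommutative)

theorem strS_self : strS K K = 𝟙 (Spec (CommRingCat.of K)) := by
  rw [strS, Algebra.algebraMap_self, CommRingCat.ofHom_id, Spec.map_id]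

/-- the constant `A`-valued point of `A` defined by a `K`-point -/
noncomputable def cstA (a : (avf f L hc).pt K) : SchemeHomOver f f :=
  ⟨f ≫ (a : SchemeHomOver (strS K K) f).1, by
    rw [Category.assoc, (a : SchemeHomOver (strS K K) f).2, strS_self, Category.comp_id]⟩

/-- the translation `x ↦ x + a` -/
noncomputable def translHom (a : (avf f L hc).pt K) : A ⟶ A :=
  (L.mul f RelativeGroupLaw.idPoint (cstA f L hc a)).1

theorem translHom_comp (a : (avf f L hc).pt K) : translHom f L hc a ≫ f = f :=
  (L.mul f RelativeGroupLaw.idPoint (cstA f L hc a)).2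

/-- the constant `T`-valued point of `A` defined by a `K`-point -/
noncomputable def translCst {T : Scheme.{u}} (t : T ⟶ Spec (CommRingCat.of K))
    (a : (avf f L hc).pt K) : SchemeHomOver t f :=
  ⟨t ≫ (a : SchemeHomOver (strS K K) f).1, by
    rw [Category.assoc, (a : SchemeHomOver (strS K K) f).2, strS_self, Category.comp_id]⟩

theorem translCst_eq_comp {T : Scheme.{u}} (t : T ⟶ Spec (CommRingCat.of K))
    (a : (avf f L hc).pt K) :
    translCst f L hc t a = schemeHomOverComp t (by rw [strS_self, Category.comp_id])
      (a : SchemeHomOver (strS K K) f) := rfl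

theorem translCst_zero {T : Scheme.{u}} (t : T ⟶ Spec (CommRingCat.of K)) :
    translCst f L hc t 0 = L.one t := by
  rw [translCst_eq_comp, avf_zero]
  exact L.one_natural _ _ _ _

theorem translCst_add {T : Scheme.{u}} (t : T ⟶ Spec (CommRingCat.of K))
    (a b : (avf f L hc).pt K) :
    translCst f L hc t (a + b) = L.mul t (translCst f L hc t a) (translCst f L hc t b) := by
  rw [translCst_eq_comp, avf_add]
  exact L.mul_natural _ _ _ _ _ _

/-- the general form of the key formula, for `T`-valued points. -/
theorem transl_comp_translHom {T : Scheme.{u}} (t : T ⟶ Spec (CommRingCat.of K))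
    (x : SchemeHomOver t f) (a : (avf f L hc).pt K) :
    x.1 ≫ translHom f L hc a = (L.mul t x (translCst f L hc t a)).1 := by
  have h := L.mul_natural f t x.1 x.2 RelativeGroupLaw.idPoint (cstA f L hc a)
  have h1 : schemeHomOverComp x.1 x.2 (RelativeGroupLaw.idPoint (f := f)) = x :=
    Subtype.ext (Category.comp_id _)
  have h2 : schemeHomOverComp x.1 x.2 (cstA f L hc a) = translCst f L hc t a := by
    apply Subtype.ext
    show x.1 ≫ f ≫ _ = t ≫ _
    rw [← Category.assoc, x.2]
  rw [h1, h2] at h
  exact congrArg Subtype.val h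

/-- **the key formula**: `u + a = t_a ∘ u` (`L.mul_natural` along `u`) -/
theorem comp_translHom {S : Type u} [CommRing S] [Algebra K S] (u : (avf f L hc).pt S)
    (a : (avf f L hc).pt K) :
    (u + (avf f L hc).cst S a : SchemeHomOver (strS K S) f).1 =
      (u : SchemeHomOver (strS K S) f).1 ≫ translHom f L hc a := by
  rw [transl_comp_translHom f L hc (strS K S) u a, avf_add]
  rfl

theorem translHom_zero : translHom f L hc 0 = 𝟙 A := by
  have h : cstA f L hc 0 = L.one f := translCst_zero f L hc f
  show (L.mul f RelativeGroupLaw.idPoint (cstA f L hc 0)).1 = 𝟙 A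
  rw [h, L.mul_one]

theorem translHom_add (a b : (avf f L hc).pt K) :
    translHom f L hc (a + b) = translHom f L hc a ≫ translHom f L hc b := by
  have h := transl_comp_translHom f L hc f (L.mul f RelativeGroupLaw.idPoint (cstA f L hc a)) b
  have h1 : cstA f L hc (a + b) = L.mul f (cstA f L hc a) (translCst f L hc f b) :=
    translCst_add f L hc f a b
  rw [L.mul_assoc, ← h1] at h
  exact h.symm

/-- the translation as an automorphism of `A` -/
noncomputable def transl (a : (avf f L hc).pt K) : A ≅ A where
  hom := translHom f L hc a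
  inv := translHom f L hc (-a)
  hom_inv_id := by rw [← translHom_add, add_neg_cancel, translHom_zero]
  inv_hom_id := by rw [← translHom_add, neg_add_cancel, translHom_zero]

@[simp] theorem transl_hom (a : (avf f L hc).pt K) : (transl f L hc a).hom = translHom f L hc a := rfl

@[simp] theorem transl_inv (a : (avf f L hc).pt K) :
    (transl f L hc a).inv = translHom f L hc (-a) := rfl

/-- the point of the space `A` underlying a `K`-point -/
noncomputable def ptK (a : (avf f L hc).pt K) : A :=
  (a : SchemeHomOver (strS K K) f).1.base (IsLocalRing.closedPoint K)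

theorem translHom_ptK (a b : (avf f L hc).pt K) :
    (translHom f L hc a).base (ptK f L hc b) = ptK f L hc (b + a) := by
  have h0 : (avf f L hc).cst K a = a := (avf f L hc).map_id a
  have h := comp_translHom f L hc b a
  rw [h0] at h
  show _ = (b + a : SchemeHomOver (strS K K) f).1.base (IsLocalRing.closedPoint K)
  rw [h]
  rfl

/-- closed points are `K`-points (`pointEquivClosedPoint`) -/
theorem exists_ptK_eq [IsAlgClosed K] [LocallyOfFiniteType f] (x : A) (hx : IsClosed {x}) :
    ∃ a : (avf f L hc).pt K, ptK f L hc a = x := by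
  let p := (pointEquivClosedPoint f).symm ⟨x, hx⟩
  refine ⟨(⟨p.1, by rw [p.2, strS_self]⟩ : SchemeHomOver (strS K K) f), ?_⟩
  have h := (pointEquivClosedPoint f).apply_symm_apply ⟨x, hx⟩
  exact congrArg Subtype.val h

theorem isClosed_ptK [IsAlgClosed K] [LocallyOfFiniteType f] (a : (avf f L hc).pt K) :
    IsClosed {ptK f L hc a} :=
  ((pointEquivClosedPoint f) ⟨(a : SchemeHomOver (strS K K) f).1, by
    rw [(a : SchemeHomOver (strS K K) f).2, strS_self]⟩).2

/-- translations act transitively on closed points -/
theorem exists_transl_eq [IsAlgClosed K] [LocallyOfFiniteType f] (x y : A) (hx : IsClosed {x})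
    (hy : IsClosed {y}) : ∃ a : (avf f L hc).pt K, (translHom f L hc a).base x = y := by
  obtain ⟨a, rfl⟩ := exists_ptK_eq f L hc x hx
  obtain ⟨b, rfl⟩ := exists_ptK_eq f L hc y hy
  exact ⟨b - a, by rw [translHom_ptK, add_sub_cancel]⟩

end Fermat.Agent.S26
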