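/-
S26 / Sch / Integral (SCH-2) : `A` is an integral scheme.
-/
import Fermat.Agent.S26.Sch.Transl
import Fermat.Agent.S26.Sch.EtChart
import Fermat.Agent.S26.Sch.IrrTop
import Fermat.Agent.S26.Alg.EtRed

set_option autoImplicit false

open CategoryTheory CategoryTheory.Limits AlgebraicGeometry NeronModelInfra GoodReductionJacobian

universe u

namespace Fermat.Agent.S26

variable {K : Type u} [Field K] {A : Scheme.{u}} (f : A ⟶ Spec (CommRingCat.of K))
  (L : RelativeGroupLaw K f) (hc : L.IsCommutative)

include L hc in
/-- every point has an open neighbourhood `Spec R` with `R` étale over a polynomial ring, hence reduced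
(`nonempty_etChart`, `etRed_isReduced`); reducedness is local (stalks: `isReduced_of_isReduced_stalk`,
`isReduced_stalk_of_isReduced`, stalk iso of an open immersion; or `IsReduced.of_openCover`-type lemma in
`Mathlib/AlgebraicGeometry/Properties.lean`). -/
theorem integral_isReduced (g : ℕ) [SmoothOfRelativeDimension g f] : IsReduced A := by
  have key : ∀ x : A, _root_.IsReduced (A.presheaf.stalk x) := by
    intro x
    obtain ⟨⟨R, j, opn, ⟨z, rfl⟩, y, et⟩⟩ := nonempty_etChart f g x
    have hred : _root_.IsReduced (CommRingCat.of R) := by
      let _ : Algebra (MvPolynomial (Fin g) K) R := y.toRingHom.toAlgebra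
      have het : Algebra.Etale (MvPolynomial (Fin g) K) R := et
      exact etRed_isReduced (MvPolynomial (Fin g) K) R
    have h1 : _root_.IsReduced ((Spec (CommRingCat.of R)).presheaf.stalk z) := inferInstance
    exact isReduced_of_injective ((asIso (j.1.stalkMap z)).commRingCatIsoToRingEquiv)
      ((asIso (j.1.stalkMap z)).commRingCatIsoToRingEquiv.injective)
  exact isReduced_of_isReduced_stalk A

/-- `A` is a noetherian space (`LocallyOfFiniteType.isLocallyNoetherian`, quasi-compact) -/
theorem integral_noetherianSpace [LocallyOfFiniteType f] [QuasiCompact f] :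
    TopologicalSpace.NoetherianSpace A := by
  have h1 : CompactSpace A := QuasiCompact.compactSpace_of_compactSpace f
  have : IsNoetherian A := { __ := LocallyOfFiniteType.isLocallyNoetherian f }
  infer_instance

theorem integral_connectedSpace (hA : AbelianSchemePropertyBundle K f) : ConnectedSpace A := by
  have h := hA.connectedFibres (IsLocalRing.closedPoint K)
  have h1 : f.base ⁻¹' {(IsLocalRing.closedPoint K : Spec (CommRingCat.of K))} = Set.univ := by
    ext z
    simp only [Set.mem_preimage, Set.mem_univ, iff_true]
    exact Subsingleton.elim (α := PrimeSpectrum K) _ _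
  exact connectedSpace_iff_univ.2 (h1 ▸ h)

include L hc in
/-- `irrTop_irreducibleSpace` with the homeomorphisms underlying `transl f L hc a` (`exists_transl_eq`),
`LocallyOfFiniteType.jacobsonSpace f`. -/
theorem integral_irreducibleSpace [IsAlgClosed K] (hA : AbelianSchemePropertyBundle K f) :
    IrreducibleSpace A := by
  have := hA.proper
  have h1 : TopologicalSpace.NoetherianSpace A := integral_noetherianSpace f
  have h2 : JacobsonSpace A := LocallyOfFiniteType.jacobsonSpace f
  have h3 : ConnectedSpace A := integral_connectedSpace f hA
  refine irrTop_irreducibleSpace fun x y hx hy => ?_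
  obtain ⟨a, ha⟩ := exists_transl_eq f L hc x y hx hy
  exact ⟨Scheme.homeoOfIso (transl f L hc a), ha⟩

include L hc in
/-- **SCH-2** (`isIntegral_iff_irreducibleSpace_and_isReduced`) -/
theorem isIntegral_A [IsAlgClosed K] (hA : AbelianSchemePropertyBundle K f) (g : ℕ)
    [SmoothOfRelativeDimension g f] : IsIntegral A :=
  (isIntegral_iff_irreducibleSpace_and_isReduced A).2
    ⟨integral_irreducibleSpace f L hc hA, integral_isReduced f L hc g⟩

/-- the coordinate ring of a chart is a domain -/
theorem chart_isDomain [IsIntegral A] {R : Type u} [CommRing R] [Algebra K R] [Nontrivial R]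
    (j : (avf f L hc).pt R) [IsOpenImmersion (hom j)] : IsDomain R := by
  have h0 : Nonempty (Spec (CommRingCat.of R)) :=
    inferInstanceAs (Nonempty (PrimeSpectrum R))
  have h1 : IsIntegral (Spec (CommRingCat.of R)) := isIntegral_of_isOpenImmersion (hom j)
  exact (affine_isIntegral_iff (CommRingCat.of R)).1 h1

/-- the generic point of `A` is the image of the generic point of any chart -/
theorem chart_genericPoint [IsIntegral A] {R : Type u} [CommRing R] [Algebra K R] [IsDomain R]
    (j : (avf f L hc).pt R) [IsOpenImmersion (hom j)] :
    (hom j).base (⟨⊥, Ideal.isPrime_bot⟩ : PrimeSpectrum R) = genericPoint A := by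
  have h0 : IsDomain (CommRingCat.of R) := ‹IsDomain R›
  have h1 := genericPoint_eq_of_isOpenImmersion (hom j)
  rw [genericPoint_eq_bot_of_affine (CommRingCat.of R)] at h1
  exact h1

/-- translations fix the generic point -/
theorem translHom_genericPoint [IsIntegral A] (a : (avf f L hc).pt K) :
    (translHom f L hc a).base (genericPoint A) = genericPoint A := by
  have h0 : IsIso (translHom f L hc a) := (transl f L hc a).isIso_hom
  exact genericPoint_eq_of_isOpenImmersion (translHom f L hc a)

end Fermat.Agent.S26
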