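/-
S26 / Sch / Sep (SCH-7) : separatedness, `A(B) → A(Frac B)` is injective for a domain `B`.
-/
import Fermat.Agent.S26.Sch.AVF

set_option autoImplicit false

open CategoryTheory CategoryTheory.Limits AlgebraicGeometry NeronModelInfra GoodReductionJacobian

universe u

namespace Fermat.Agent.S26

variable {K : Type u} [Field K] {A : Scheme.{u}} (f : A ⟶ Spec (CommRingCat.of K))
  (L : RelativeGroupLaw K f) (hc : L.IsCommutative)

/-- `Spec` of an injective ring homomorphism is dominant. -/
theorem sep_isDominant {R S : Type u} [CommRing R] [CommRing S] (φ : R →+* S)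
    (hφ : Function.Injective φ) : IsDominant (Spec.map (CommRingCat.ofHom φ)) := by
  constructor
  have h : DenseRange (PrimeSpectrum.comap φ) := by
    rw [PrimeSpectrum.denseRange_comap_iff_ker_le_nilRadical,
      (RingHom.injective_iff_ker_eq_bot φ).1 hφ]
    exact bot_le
  exact h

/-- **SCH-7**.  `Spec F → Spec B` is dominant (`B → F` injective), `Spec B` is reduced, `f` separated:
`ext_of_isDominant_of_isSeparated`. -/
theorem avf_sep [IsSeparated f] (B F : Type u) [CommRing B] [IsDomain B] [Algebra K B] [Field F]
    [Algebra K F] [Algebra B F] [IsScalarTower K B F] [IsFractionRing B F] :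
    Function.Injective ((avf f L hc).map (IsScalarTower.toAlgHom K B F)) := by
  intro a b hab
  have h1 : specA (IsScalarTower.toAlgHom K B F) ≫ (a : SchemeHomOver (strS K B) f).1
      = specA (IsScalarTower.toAlgHom K B F) ≫ (b : SchemeHomOver (strS K B) f).1 :=
    congrArg Subtype.val hab
  have : IsDominant (specA (IsScalarTower.toAlgHom K B F)) :=
    sep_isDominant _ (IsFractionRing.injective B F)
  apply Subtype.ext
  exact ext_of_isDominant_of_isSeparated f
    ((a : SchemeHomOver (strS K B) f).2.trans (b : SchemeHomOver (strS K B) f).2.symm)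
    (specA (IsScalarTower.toAlgHom K B F)) h1

end Fermat.Agent.S26
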