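/-
S26 / Sch / GeoOf (SCH-A) : the structure `Geo (avf f L hc) g`.
-/
import Fermat.Agent.S26.Sch.Integral
import Fermat.Agent.S26.Sch.Sep
import Fermat.Agent.S26.Sch.Ded

set_option autoImplicit false

open CategoryTheory CategoryTheory.Limits AlgebraicGeometry NeronModelInfra GoodReductionJacobian

universe u

namespace Fermat.Agent.S26

variable {K : Type u} [Field K] {A : Scheme.{u}} (f : A ⟶ Spec (CommRingCat.of K))
  (L : RelativeGroupLaw K f) (hc : L.IsCommutative)

section

variable {f L hc}
variable {R : Type u} [CommRing R] [Algebra K R] (j : (avf f L hc).pt R)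

/-- `hom (u + a) = hom u ≫ t_a` -/
theorem hom_add_cst {S : Type u} [CommRing S] [Algebra K S] (u : (avf f L hc).pt S)
    (a : (avf f L hc).pt K) :
    hom (u + (avf f L hc).cst S a) = hom u ≫ translHom f L hc a :=
  comp_translHom f L hc u a

theorem geoof_cst_add (S : Type u) [CommRing S] [Algebra K S] (a b : (avf f L hc).pt K) :
    (avf f L hc).cst S (a + b) = (avf f L hc).cst S a + (avf f L hc).cst S b :=
  (avf f L hc).map_add _ a b

theorem geoof_cst_zero (S : Type u) [CommRing S] [Algebra K S] :
    (avf f L hc).cst S 0 = 0 := by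
  have h := geoof_cst_add (f := f) (L := L) (hc := hc) S 0 0
  rw [add_zero] at h
  exact left_eq_add.1 h

theorem geoof_hom_base_add_cst {S : Type u} [CommRing S] [Algebra K S] (u : (avf f L hc).pt S)
    (a : (avf f L hc).pt K) (y : Spec (CommRingCat.of S)) :
    (hom (u + (avf f L hc).cst S a)).base y = (translHom f L hc a).base ((hom u).base y) := by
  rw [hom_add_cst]
  rfl

/-- **SCH-5**.  The open sets `t_a (range j)`, `a ∈ A(K)`, cover `A`: their union is open and contains every closed
point `x = ptK b` (`exists_ptK_eq`), since `ptK b = t_b (ptK 0)` (`translHom_ptK`); the complement is closed without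
closed points, hence empty (`nonempty_inter_closedPoints`, `LocallyOfFiniteType.jacobsonSpace f`).  `A` is quasi-compact:
finite subcover, `l`.  For `u ∈ A(Ψ)`, `Ψ` local, the image of the closed point lies in `t_a (range j)` for some `a ∈ l`;
then `u - a = u ≫ t_{-a}` (`hom_add_cst`) maps the closed point into `range j`: `chart_lift_local`. -/
theorem chart_cover [IsAlgClosed K] [LocallyOfFiniteType f] [QuasiCompact f]
    [IsOpenImmersion (hom j)] (h0 : ptK f L hc 0 ∈ Set.range (hom j).base) :
    ∃ l : List ((avf f L hc).pt K), ∀ (Ψ : Type u) [CommRing Ψ] [IsLocalRing Ψ] [Algebra K Ψ]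
      (u : (avf f L hc).pt Ψ), ∃ a ∈ l, ∃ w : R →ₐ[K] Ψ,
        u = (avf f L hc).map w j + (avf f L hc).cst Ψ a := by
  classical
  have hopen : IsOpen (Set.range (hom j).base) := (hom j).isOpenEmbedding.isOpen_range
  have hVo : ∀ a : (avf f L hc).pt K,
      IsOpen ((translHom f L hc (-a)).base ⁻¹' Set.range (hom j).base) :=
    fun a => hopen.preimage (translHom f L hc (-a)).continuous
  have hJ : JacobsonSpace A := LocallyOfFiniteType.jacobsonSpace f
  have hC : CompactSpace A := QuasiCompact.compactSpace_of_compactSpace f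
  have hcov : (Set.univ : Set A) ⊆
      ⋃ a : (avf f L hc).pt K, (translHom f L hc (-a)).base ⁻¹' Set.range (hom j).base := by
    by_contra hne
    have hZc : IsClosed
        (⋃ a : (avf f L hc).pt K, (translHom f L hc (-a)).base ⁻¹' Set.range (hom j).base)ᶜ :=
      (isOpen_iUnion hVo).isClosed_compl
    have hZn : ((⋃ a : (avf f L hc).pt K,
        (translHom f L hc (-a)).base ⁻¹' Set.range (hom j).base)ᶜ).Nonempty := by
      rw [Set.nonempty_compl]
      intro h
      exact hne h.ge
    obtain ⟨x, hxZ, hxc⟩ := nonempty_inter_closedPoints hZn hZc.isLocallyClosed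
    obtain ⟨b, rfl⟩ := exists_ptK_eq f L hc x hxc
    apply hxZ
    refine Set.mem_iUnion.2 ⟨b, ?_⟩
    show (translHom f L hc (-b)).base (ptK f L hc b) ∈ Set.range (hom j).base
    rw [translHom_ptK, add_neg_cancel]
    exact h0
  obtain ⟨t, ht⟩ := isCompact_univ.elim_finite_subcover _ hVo hcov
  refine ⟨t.toList, fun Ψ _ _ _ u => ?_⟩
  obtain ⟨a, hat, hxa⟩ := Set.mem_iUnion₂.1
    (ht (Set.mem_univ ((hom u).base (IsLocalRing.closedPoint Ψ))))
  have hxa' : (translHom f L hc (-a)).base ((hom u).base (IsLocalRing.closedPoint Ψ)) ∈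
      Set.range (hom j).base := hxa
  rw [← geoof_hom_base_add_cst u (-a) (IsLocalRing.closedPoint Ψ)] at hxa'
  obtain ⟨w, hw⟩ := chart_lift_local j _ hxa'
  refine ⟨a, Finset.mem_toList.2 hat, w, ?_⟩
  rw [hw, add_assoc, ← geoof_cst_add, neg_add_cancel, geoof_cst_zero, add_zero]

/-- **SCH-6**.  `η + a = η ≫ t_a` has image `t_a (generic point) = generic point ∈ range j`
(`chart_genericPoint`, `translHom_genericPoint`, `specA_closedPoint`): `chart_lift` (a field has one point), `chart_ker`:
the kernel of the lift is `⊥`. -/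
theorem chart_gen_trans [IsIntegral A] [IsDomain R] [IsOpenImmersion (hom j)]
    (a : (avf f L hc).pt K) :
    ∃ i : R →ₐ[K] FractionRing R, Function.Injective i ∧
      (avf f L hc).map i j = (avf f L hc).map (IsScalarTower.toAlgHom K R (FractionRing R)) j +
        (avf f L hc).cst (FractionRing R) a := by
  have hker : RingHom.ker (IsScalarTower.toAlgHom K R (FractionRing R)) = ⊥ := by
    rw [← RingHom.injective_iff_ker_eq_bot]
    exact IsFractionRing.injective R (FractionRing R)
  have hgen : ∀ y : Spec (CommRingCat.of (FractionRing R)),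
      (hom ((avf f L hc).map (IsScalarTower.toAlgHom K R (FractionRing R)) j +
        (avf f L hc).cst (FractionRing R) a)).base y
        = (hom j).base (⟨⊥, Ideal.isPrime_bot⟩ : PrimeSpectrum R) := by
    intro y
    have h1 : (specA (IsScalarTower.toAlgHom K R (FractionRing R))).base y
        = (⟨⊥, Ideal.isPrime_bot⟩ : PrimeSpectrum R) := by
      apply PrimeSpectrum.ext
      rw [specA_closedPoint, hker]
    have h2 : (hom ((avf f L hc).map (IsScalarTower.toAlgHom K R (FractionRing R)) j)).base y
        = (hom j).base (⟨⊥, Ideal.isPrime_bot⟩ : PrimeSpectrum R) := by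
      rw [hom_map, ← h1]
      rfl
    rw [geoof_hom_base_add_cst, h2, chart_genericPoint, translHom_genericPoint]
  obtain ⟨i, hi⟩ := chart_lift j ((avf f L hc).map (IsScalarTower.toAlgHom K R (FractionRing R)) j +
      (avf f L hc).cst (FractionRing R) a) (by
    rintro _ ⟨y, rfl⟩
    exact ⟨_, (hgen y).symm⟩)
  refine ⟨i, ?_, hi⟩
  have hk := chart_ker j i (IsLocalRing.closedPoint (FractionRing R))
    (⟨⊥, Ideal.isPrime_bot⟩ : PrimeSpectrum R) (by rw [hi]; exact hgen _)
  exact (RingHom.injective_iff_ker_eq_bot (i : R →+* FractionRing R)).2 hk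

/-- the origin lies in the chart -/
theorem chart_origin [IsOpenImmersion (hom j)] (h0 : ptK f L hc 0 ∈ Set.range (hom j).base) :
    ∃ ε : R →ₐ[K] K, (avf f L hc).map ε j = 0 :=
  chart_lift_local j 0 h0

theorem chart_nontrivial (x : A) (h0 : x ∈ Set.range (hom j).base) : Nontrivial R := by
  obtain ⟨z, -⟩ := h0
  exact PrimeSpectrum.nonempty_iff_nontrivial.1 ⟨z⟩

end

variable (hA : AbelianSchemePropertyBundle K f) (g : ℕ) [SmoothOfRelativeDimension g f]

/-- the chosen étale chart at the origin -/
noncomputable def etc0 : EtChart f g (ptK f L hc 0) :=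
  Classical.choice (nonempty_etChart f g (ptK f L hc 0))

/-- the coordinate ring of the chosen chart -/
abbrev R0 : Type u := (etc0 f L hc g).R

/-- the chosen chart as a point of `A` -/
noncomputable def j0 : (avf f L hc).pt (R0 f L hc g) := (etc0 f L hc g).j

theorem j0_isOpenImmersion : IsOpenImmersion (hom (j0 f L hc g)) := (etc0 f L hc g).opn

theorem j0_mem : ptK f L hc 0 ∈ Set.range (hom (j0 f L hc g)).base := (etc0 f L hc g).mem

variable [IsAlgClosed K]

include hA in
theorem R0_isDomain : IsDomain (R0 f L hc g) :=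
  haveI := isIntegral_A f L hc hA g
  haveI := chart_nontrivial (j0 f L hc g) _ (j0_mem f L hc g)
  haveI := j0_isOpenImmersion f L hc g
  chart_isDomain f L hc (j0 f L hc g)

/-- **SCH-A** -/
noncomputable def geoOf : Geo (avf f L hc) g where
  R₀ := R0 f L hc g
  dom := R0_isDomain f L hc hA g
  ι₀ := j0 f L hc g
  y₀ := (etc0 f L hc g).y
  et := (etc0 f L hc g).et
  ε₀ :=
    haveI := j0_isOpenImmersion f L hc g
    (chart_origin (j0 f L hc g) (j0_mem f L hc g)).choose
  ε₀_ι₀ :=
    haveI := j0_isOpenImmersion f L hc g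
    (chart_origin (j0 f L hc g) (j0_mem f L hc g)).choose_spec
  mono := fun w w' h =>
    haveI := j0_isOpenImmersion f L hc g
    chart_mono (j0 f L hc g) w w' h
  zar := fun u k _ _ e w₀ h =>
    haveI := j0_isOpenImmersion f L hc g
    chart_zar (j0 f L hc g) u k e w₀ h
  cover :=
    haveI := hA.proper
    haveI := j0_isOpenImmersion f L hc g
    chart_cover (j0 f L hc g) (j0_mem f L hc g)
  gen_trans := fun a =>
    haveI := isIntegral_A f L hc hA g
    haveI := R0_isDomain f L hc hA g
    haveI := j0_isOpenImmersion f L hc g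
    chart_gen_trans (j0 f L hc g) a
  sep := fun B F _ _ _ _ _ _ _ _ =>
    haveI := hA.proper
    avf_sep f L hc B F
  ded := fun B F _ _ _ _ _ _ _ _ =>
    haveI := hA.proper
    avf_ded f L hc B F

end Fermat.Agent.S26
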