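/-
S26 / Sch / Proj (SCH-9) : properness in the form `HasProj`.
-/
import Fermat.Agent.S26.Sch.AVF
import Fermat.Agent.S26.AV.Geo
import Fermat.Agent.S26.Alg.Semicont
import Fermat.Agent.S26.Alg.SemiBC

set_option autoImplicit false

open CategoryTheory CategoryTheory.Limits AlgebraicGeometry NeronModelInfra GoodReductionJacobian
open scoped TensorProduct

universe u

namespace Fermat.Agent.S26

variable {K : Type u} [Field K]

section AlgOf

variable {S S' S'' : Type u} [CommRing S] [Algebra K S] [CommRing S'] [Algebra K S']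
  [CommRing S''] [Algebra K S'']

/-- the algebra homomorphism of a morphism of affine `K`-schemes -/
noncomputable def projAlgOf (y : Spec (CommRingCat.of S') ⟶ Spec (CommRingCat.of S))
    (hy : y ≫ strS K S = strS K S') : S →ₐ[K] S' :=
  { (Spec.preimage y).hom with
    commutes' := fun r => by
      have h1 : Spec.map (CommRingCat.ofHom (algebraMap K S) ≫ Spec.preimage y) =
          Spec.map (CommRingCat.ofHom (algebraMap K S')) := by
        rw [Spec.map_comp, Spec.map_preimage]
        exact hy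
      have h2 := Spec.map_injective h1
      exact congrArg (fun g => g.hom r) h2 }

theorem proj_specA_algOf (y : Spec (CommRingCat.of S') ⟶ Spec (CommRingCat.of S))
    (hy : y ≫ strS K S = strS K S') : specA (projAlgOf y hy) = y :=
  Spec.map_preimage y

theorem proj_specA_injective {φ ψ : S →ₐ[K] S'} (h : specA φ = specA ψ) : φ = ψ := by
  have h1 := Spec.map_injective h
  have h2 : φ.toRingHom = ψ.toRingHom := congrArg (fun g => g.hom) h1
  exact AlgHom.coe_ringHom_injective h2

theorem proj_specA_comp (ψ : S' →ₐ[K] S'') (φ : S →ₐ[K] S') :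
    specA (ψ.comp φ) = specA ψ ≫ specA φ := by
  rw [specA, specA, specA, ← Spec.map_comp, ← CommRingCat.ofHom_comp]
  rfl

/-- a prime ideal as a point of the scheme `Spec S` -/
def projPt (p : PrimeSpectrum S) : Spec (CommRingCat.of S) := p

theorem specA_projPt (φ : S →ₐ[K] S') (z : PrimeSpectrum S') :
    (specA φ) (projPt z) = projPt (PrimeSpectrum.comap φ.toRingHom z) := rfl

theorem projPt_injective : Function.Injective (projPt (S := S)) := fun _ _ h => h

theorem projPt_surjective : Function.Surjective (projPt (S := S)) := fun p => ⟨p, rfl⟩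

theorem proj_strS_self : strS K K = 𝟙 _ := by
  rw [strS]
  exact Spec.map_id _

end AlgOf

section ToPt

variable {A : Scheme.{u}} (f : A ⟶ Spec (CommRingCat.of K)) (L : RelativeGroupLaw K f)
  (hc : L.IsCommutative) (R₁ : Type u) [CommRing R₁] [Algebra K R₁]

/-- the functor of points of `A × Spec R₁` -/
noncomputable abbrev projX : PtF K := (avf f L hc).toPtF.prod (PtF.ofAlg K R₁)

variable {S S' : Type u} [CommRing S] [Algebra K S] [CommRing S'] [Algebra K S']

/-- (PJ-1) first component -/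
noncomputable def projA (x : Spec (CommRingCat.of S) ⟶ pullback f (strS K R₁))
    (hx : x ≫ pullback.fst f (strS K R₁) ≫ f = strS K S) : SchemeHomOver (strS K S) f :=
  ⟨x ≫ pullback.fst f (strS K R₁), by rw [Category.assoc]; exact hx⟩

theorem proj_snd_str (x : Spec (CommRingCat.of S) ⟶ pullback f (strS K R₁))
    (hx : x ≫ pullback.fst f (strS K R₁) ≫ f = strS K S) :
    (x ≫ pullback.snd f (strS K R₁)) ≫ strS K R₁ = strS K S := by
  rw [Category.assoc, ← pullback.condition]; exact hx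

/-- (PJ-1) second component -/
noncomputable def projW (x : Spec (CommRingCat.of S) ⟶ pullback f (strS K R₁))
    (hx : x ≫ pullback.fst f (strS K R₁) ≫ f = strS K S) : R₁ →ₐ[K] S :=
  projAlgOf (x ≫ pullback.snd f (strS K R₁)) (proj_snd_str f R₁ x hx)

theorem specA_projW (x : Spec (CommRingCat.of S) ⟶ pullback f (strS K R₁))
    (hx : x ≫ pullback.fst f (strS K R₁) ≫ f = strS K S) :
    specA (projW f R₁ x hx) = x ≫ pullback.snd f (strS K R₁) :=
  proj_specA_algOf _ _

/-- (PJ-1) the point of the product functor defined by a morphism to the fibre product -/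
noncomputable def projToPt (x : Spec (CommRingCat.of S) ⟶ pullback f (strS K R₁))
    (hx : x ≫ pullback.fst f (strS K R₁) ≫ f = strS K S) : (projX f L hc R₁).pt S :=
  PtF.pair (X := (avf f L hc).toPtF) (Y := PtF.ofAlg K R₁) (projA f R₁ x hx) (projW f R₁ x hx)

theorem projW_comp (φ : S →ₐ[K] S') (x : Spec (CommRingCat.of S) ⟶ pullback f (strS K R₁))
    (hx : x ≫ pullback.fst f (strS K R₁) ≫ f = strS K S)
    (hx' : (specA φ ≫ x) ≫ pullback.fst f (strS K R₁) ≫ f = strS K S') :
    projW f R₁ (specA φ ≫ x) hx' = φ.comp (projW f R₁ x hx) := by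
  apply proj_specA_injective
  rw [proj_specA_comp, specA_projW, specA_projW, Category.assoc]

theorem projA_comp (φ : S →ₐ[K] S') (x : Spec (CommRingCat.of S) ⟶ pullback f (strS K R₁))
    (hx : x ≫ pullback.fst f (strS K R₁) ≫ f = strS K S)
    (hx' : (specA φ ≫ x) ≫ pullback.fst f (strS K R₁) ≫ f = strS K S') :
    projA f R₁ (specA φ ≫ x) hx' = (avf f L hc).map φ (projA f R₁ x hx) := by
  apply Subtype.ext
  show (specA φ ≫ x) ≫ pullback.fst f (strS K R₁) = specA φ ≫ x ≫ pullback.fst f (strS K R₁)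
  rw [Category.assoc]

theorem projToPt_comp (φ : S →ₐ[K] S') (x : Spec (CommRingCat.of S) ⟶ pullback f (strS K R₁))
    (hx : x ≫ pullback.fst f (strS K R₁) ≫ f = strS K S)
    (hx' : (specA φ ≫ x) ≫ pullback.fst f (strS K R₁) ≫ f = strS K S') :
    (projX f L hc R₁).map φ (projToPt f L hc R₁ x hx) = projToPt f L hc R₁ (specA φ ≫ x) hx' := by
  unfold projToPt
  rw [projW_comp f R₁ φ x hx hx', projA_comp f L hc R₁ φ x hx hx']
  rfl

theorem projToPt_lift (a : SchemeHomOver (strS K S) f) (w : R₁ →ₐ[K] S)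
    (h : a.1 ≫ f = specA w ≫ strS K R₁)
    (hx : pullback.lift a.1 (specA w) h ≫ pullback.fst f (strS K R₁) ≫ f = strS K S) :
    projToPt f L hc R₁ (pullback.lift a.1 (specA w) h) hx =
      PtF.pair (X := (avf f L hc).toPtF) (Y := PtF.ofAlg K R₁) a w := by
  have h1 : projA f R₁ (pullback.lift a.1 (specA w) h) hx = a :=
    Subtype.ext (pullback.lift_fst _ _ _)
  have h2 : projW f R₁ (pullback.lift a.1 (specA w) h) hx = w := by
    apply proj_specA_injective
    rw [specA_projW, pullback.lift_snd]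
  unfold projToPt
  rw [h1, h2]

end ToPt

section Key

variable {A : Scheme.{u}} (f : A ⟶ Spec (CommRingCat.of K)) (L : RelativeGroupLaw K f)
  (hc : L.IsCommutative) (R₁ : Type u) [CommRing R₁] [Algebra K R₁]
  (𝓗 : ModFun (projX f L hc R₁))

/-- (PJ-2) the fibre dimension at a field valued point, computed in an affine chart -/
theorem proj_key {S : Type u} [CommRing S] [Algebra K S]
    (j : Spec (CommRingCat.of S) ⟶ pullback f (strS K R₁)) [IsOpenImmersion j]
    (hj : j ≫ pullback.fst f (strS K R₁) ≫ f = strS K S)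
    {k' : Type u} [Field k'] [Algebra K k']
    (x : Spec (CommRingCat.of k') ⟶ pullback f (strS K R₁))
    (hx : x ≫ pullback.fst f (strS K R₁) ≫ f = strS K k')
    (p : PrimeSpectrum S) (z : Spec (CommRingCat.of k'))
    (hp : j (projPt p) = x z) :
    Module.finrank k' (𝓗.H (projToPt f L hc R₁ x hx)) =
      Module.finrank p.asIdeal.ResidueField
        (p.asIdeal.ResidueField ⊗[S] 𝓗.H (projToPt f L hc R₁ j hj)) := by
  have hsub : Subsingleton (Spec (CommRingCat.of k')) :=
    inferInstanceAs (Subsingleton (PrimeSpectrum k'))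
  have hrange : Set.range x ⊆ Set.range j := by
    rintro _ ⟨z', rfl⟩
    rw [Subsingleton.elim z' z, ← hp]
    exact ⟨_, rfl⟩
  obtain ⟨y, hy⟩ : ∃ y : Spec (CommRingCat.of k') ⟶ Spec (CommRingCat.of S), y ≫ j = x :=
    ⟨IsOpenImmersion.lift j x hrange, IsOpenImmersion.lift_fac j x hrange⟩
  have hys : y ≫ strS K S = strS K k' := by
    rw [← hj, ← Category.assoc, hy, hx]
  obtain ⟨e, he⟩ : ∃ e : S →ₐ[K] k', specA e = y := ⟨projAlgOf y hys, proj_specA_algOf y hys⟩
  subst he
  subst hy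
  have hmap := projToPt_comp f L hc R₁ e j hj hx
  have hBC := 𝓗.isBC e hmap
  have := 𝓗.fin (projToPt f L hc R₁ j hj)
  refine IsBC.finrank_eq e.toRingHom hBC p ?_
  obtain ⟨z, rfl⟩ := projPt_surjective z
  have h1 : (specA e) (projPt z) = (projPt p) := by
    apply j.isOpenEmbedding.injective
    rw [hp]
    rfl
  rw [specA_projPt] at h1
  have h2 := projPt_injective h1
  have h3 : z.asIdeal = ⊥ :=
    have := z.isPrime
    Ideal.eq_bot_of_prime _
  rw [← h2, PrimeSpectrum.comap_asIdeal, h3]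
  rfl

/-- every point lies in an affine chart over `K` -/
theorem proj_exists_chart (t : (pullback f (strS K R₁) : Scheme.{u})) :
    ∃ (S : Type u) (_ : CommRing S) (_ : Algebra K S)
      (j : Spec (CommRingCat.of S) ⟶ pullback f (strS K R₁)) (_ : IsOpenImmersion j)
      (_ : j ≫ pullback.fst f (strS K R₁) ≫ f = strS K S) (p : PrimeSpectrum S),
      j (projPt p) = t := by
  have key : ∀ (R : CommRingCat.{u}) (j : Spec R ⟶ pullback f (strS K R₁)) [IsOpenImmersion j]
      (y : Spec R), j y = t → ∃ (S : Type u) (_ : CommRing S) (_ : Algebra K S)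
      (j : Spec (CommRingCat.of S) ⟶ pullback f (strS K R₁)) (_ : IsOpenImmersion j)
      (_ : j ≫ pullback.fst f (strS K R₁) ≫ f = strS K S) (p : PrimeSpectrum S),
      j (projPt p) = t := by
    intro R j _ y hy
    let _ : Algebra K R := (Spec.preimage (j ≫ pullback.fst f (strS K R₁) ≫ f)).hom.toAlgebra
    exact ⟨R, inferInstance, inferInstance, j, inferInstance,
      (Spec.map_preimage (j ≫ pullback.fst f (strS K R₁) ≫ f)).symm, y, hy⟩
  obtain ⟨y, hy⟩ := (pullback f (strS K R₁)).affineOpenCover.covers t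
  exact key _ _ y hy

/-- (PJ-2) the locus where the fibre dimension is `≥ k` -/
def projF (k : ℕ) : Set (pullback f (strS K R₁) : Scheme.{u}) :=
  {t | ∃ (k' : Type u) (_ : Field k') (_ : Algebra K k')
      (x : Spec (CommRingCat.of k') ⟶ pullback f (strS K R₁))
      (hx : x ≫ pullback.fst f (strS K R₁) ≫ f = strS K k') (z : Spec (CommRingCat.of k')),
      x z = t ∧ k ≤ Module.finrank k' (𝓗.H (projToPt f L hc R₁ x hx))}

theorem proj_preimage_F (k : ℕ) {S : Type u} [CommRing S] [Algebra K S]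
    (j : Spec (CommRingCat.of S) ⟶ pullback f (strS K R₁)) [IsOpenImmersion j]
    (hj : j ≫ pullback.fst f (strS K R₁) ≫ f = strS K S) (p : PrimeSpectrum S) :
    j (projPt p) ∈ projF f L hc R₁ 𝓗 k ↔
      k ≤ Module.finrank p.asIdeal.ResidueField
        (p.asIdeal.ResidueField ⊗[S] 𝓗.H (projToPt f L hc R₁ j hj)) := by
  constructor
  · rintro ⟨k', _, _, x, hx, z, hxz, hk⟩
    rwa [proj_key f L hc R₁ 𝓗 j hj x hx p z hxz.symm] at hk
  · intro hk
    let e : S →ₐ[K] p.asIdeal.ResidueField := IsScalarTower.toAlgHom K S p.asIdeal.ResidueField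
    have hx : (specA e ≫ j) ≫ pullback.fst f (strS K R₁) ≫ f = strS K p.asIdeal.ResidueField := by
      rw [Category.assoc, hj, specA_str]
    have h1 : PrimeSpectrum.comap e.toRingHom (⊥ : PrimeSpectrum p.asIdeal.ResidueField) = p := by
      apply PrimeSpectrum.ext
      rw [PrimeSpectrum.comap_asIdeal]
      exact Ideal.ker_algebraMap_residueField p.asIdeal
    have hxz : j (projPt p) = (specA e ≫ j) (projPt ⊥) := by
      have h2 : (specA e ≫ j) (projPt ⊥) = j ((specA e) (projPt ⊥)) := rfl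
      rw [h2, specA_projPt]
      exact congrArg (fun p' => j (projPt p')) h1.symm
    refine ⟨p.asIdeal.ResidueField, inferInstance, inferInstance, specA e ≫ j, hx, projPt ⊥,
      hxz.symm, ?_⟩
    rwa [proj_key f L hc R₁ 𝓗 j hj (specA e ≫ j) hx p (projPt ⊥) hxz]

theorem proj_isClosed_F (k : ℕ) : IsClosed (projF f L hc R₁ 𝓗 k) := by
  rw [← isOpen_compl_iff, isOpen_iff_forall_mem_open]
  intro t ht
  obtain ⟨S, _, _, j, _, hj, p, rfl⟩ := proj_exists_chart f R₁ t
  have := 𝓗.fin (projToPt f L hc R₁ j hj)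
  have hcl := isClosed_finrank_fiber_ge S (𝓗.H (projToPt f L hc R₁ j hj)) k
  have hpre : (j ⁻¹' (projF f L hc R₁ 𝓗 k)ᶜ : Set (Spec (CommRingCat.of S))) =
      ({p : PrimeSpectrum S | k ≤ Module.finrank p.asIdeal.ResidueField
        (p.asIdeal.ResidueField ⊗[S] 𝓗.H (projToPt f L hc R₁ j hj))}ᶜ : Set (PrimeSpectrum S)) := by
    ext p'
    exact not_congr (proj_preimage_F f L hc R₁ 𝓗 k j hj p')
  have hop : IsOpen (j ⁻¹' (projF f L hc R₁ 𝓗 k)ᶜ : Set (Spec (CommRingCat.of S))) := by
    rw [hpre]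
    exact hcl.isOpen_compl
  exact ⟨j '' (j ⁻¹' (projF f L hc R₁ 𝓗 k)ᶜ), Set.image_preimage_subset _ _,
    j.isOpenEmbedding.isOpenMap _ hop, ⟨projPt p, ht, rfl⟩⟩

theorem proj_mem_F_iff (k : ℕ) {k' : Type u} [Field k'] [Algebra K k']
    (x : Spec (CommRingCat.of k') ⟶ pullback f (strS K R₁))
    (hx : x ≫ pullback.fst f (strS K R₁) ≫ f = strS K k') (z : Spec (CommRingCat.of k')) :
    x z ∈ projF f L hc R₁ 𝓗 k ↔ k ≤ Module.finrank k' (𝓗.H (projToPt f L hc R₁ x hx)) := by
  constructor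
  · intro h
    obtain ⟨S, _, _, j, _, hj, p, hp⟩ := proj_exists_chart f R₁ (x z)
    rw [← hp, proj_preimage_F f L hc R₁ 𝓗 k j hj p] at h
    rwa [proj_key f L hc R₁ 𝓗 j hj x hx p z hp]
  · intro h
    exact ⟨k', inferInstance, inferInstance, x, hx, z, rfl, h⟩

theorem proj_algHom_ext_of_ker {w w' : R₁ →ₐ[K] K}
    (h : RingHom.ker w.toRingHom = RingHom.ker w'.toRingHom) : w' = w := by
  ext r
  have h1 : r - algebraMap K R₁ (w r) ∈ RingHom.ker w.toRingHom := by
    rw [RingHom.mem_ker]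
    show w (r - algebraMap K R₁ (w r)) = 0
    rw [map_sub, AlgHom.commutes]
    simp
  rw [h, RingHom.mem_ker] at h1
  have h2 : w' (r - algebraMap K R₁ (w r)) = 0 := h1
  rw [map_sub, AlgHom.commutes, sub_eq_zero] at h2
  simpa using h2

theorem proj_forward (k : ℕ) (w : R₁ →ₐ[K] K) (a : SchemeHomOver (strS K K) f)
    (hk : k ≤ Module.finrank K
      (𝓗.H (PtF.pair (X := (avf f L hc).toPtF) (Y := PtF.ofAlg K R₁) a w))) :
    projPt (PrimeSpectrum.comap w.toRingHom (⊥ : PrimeSpectrum K)) ∈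
      (pullback.snd f (strS K R₁)) '' projF f L hc R₁ 𝓗 k := by
  have h : a.1 ≫ f = specA w ≫ strS K R₁ := by
    rw [specA_str]; exact a.2
  have hx : pullback.lift a.1 (specA w) h ≫ pullback.fst f (strS K R₁) ≫ f = strS K K := by
    rw [pullback.lift_fst_assoc]; exact a.2
  refine ⟨pullback.lift a.1 (specA w) h (projPt ⊥), ?_, ?_⟩
  · rw [proj_mem_F_iff f L hc R₁ 𝓗 k _ hx, projToPt_lift]
    exact hk
  · have h2 : (pullback.snd f (strS K R₁)) (pullback.lift a.1 (specA w) h (projPt ⊥)) =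
        (pullback.lift a.1 (specA w) h ≫ pullback.snd f (strS K R₁)) (projPt ⊥) := rfl
    rw [h2, pullback.lift_snd, specA_projPt]

theorem proj_backward [IsAlgClosed K] [IsProper f] [Algebra.FiniteType K R₁] (k : ℕ)
    (w : R₁ →ₐ[K] K)
    (h : projPt (PrimeSpectrum.comap w.toRingHom (⊥ : PrimeSpectrum K)) ∈
      (pullback.snd f (strS K R₁)) '' projF f L hc R₁ 𝓗 k) :
    ∃ a : SchemeHomOver (strS K K) f, k ≤ Module.finrank K
      (𝓗.H (PtF.pair (X := (avf f L hc).toPtF) (Y := PtF.ofAlg K R₁) a w)) := by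
  obtain ⟨t, htF, ht⟩ := h
  have hJ : IsJacobsonRing R₁ := isJacobsonRing_of_finiteType (A := K)
  have hJT : JacobsonSpace (pullback f (strS K R₁) : Scheme.{u}) :=
    LocallyOfFiniteType.jacobsonSpace (pullback.snd f (strS K R₁))
  have hsurj : Function.Surjective w.toRingHom := fun c => ⟨algebraMap K R₁ c, by simp⟩
  have hmax : (PrimeSpectrum.comap w.toRingHom (⊥ : PrimeSpectrum K)).asIdeal.IsMaximal :=
    RingHom.ker_isMaximal_of_surjective w.toRingHom hsurj
  have hcp : IsClosed ({projPt (PrimeSpectrum.comap w.toRingHom (⊥ : PrimeSpectrum K))} :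
      Set (Spec (CommRingCat.of R₁))) :=
    (PrimeSpectrum.isClosed_singleton_iff_isMaximal _).mpr hmax
  have hZ' : IsClosed (projF f L hc R₁ 𝓗 k ∩ (pullback.snd f (strS K R₁)) ⁻¹'
      {projPt (PrimeSpectrum.comap w.toRingHom (⊥ : PrimeSpectrum K))}) :=
    (proj_isClosed_F f L hc R₁ 𝓗 k).inter (hcp.preimage (pullback.snd f (strS K R₁)).continuous)
  have hne : (projF f L hc R₁ 𝓗 k ∩ (pullback.snd f (strS K R₁)) ⁻¹'
      {projPt (PrimeSpectrum.comap w.toRingHom (⊥ : PrimeSpectrum K))}).Nonempty := ⟨t, htF, ht⟩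
  obtain ⟨t', ⟨ht'F, ht'w⟩, ht'c⟩ := nonempty_inter_closedPoints hne hZ'.isLocallyClosed
  have hft : LocallyOfFiniteType (strS K R₁) := by
    rw [HasRingHomProperty.Spec_iff (P := @LocallyOfFiniteType)]
    exact RingHom.finiteType_algebraMap.mpr inferInstance
  have hx0 := pointOfClosedPoint_comp (pullback.fst f (strS K R₁) ≫ f) t' ht'c
  obtain ⟨x, hxdef⟩ : ∃ x, x = pointOfClosedPoint (pullback.fst f (strS K R₁) ≫ f) t' ht'c :=
    ⟨_, rfl⟩
  have hxt : ∀ z, x z = t' := fun z => by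
    rw [hxdef]; exact pointOfClosedPoint_apply _ _ _ z
  rw [← hxdef] at hx0
  have hx : x ≫ pullback.fst f (strS K R₁) ≫ f = strS K K := by
    rw [hx0, proj_strS_self]
  have hk : k ≤ Module.finrank K (𝓗.H (projToPt f L hc R₁ x hx)) := by
    rw [← proj_mem_F_iff f L hc R₁ 𝓗 k x hx (projPt ⊥), hxt]
    exact ht'F
  have hw : projW f R₁ x hx = w := by
    apply proj_algHom_ext_of_ker
    have h1 : (specA (projW f R₁ x hx)) (projPt ⊥) =
        projPt (PrimeSpectrum.comap w.toRingHom (⊥ : PrimeSpectrum K)) := by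
      rw [specA_projW]
      have h2 : (x ≫ pullback.snd f (strS K R₁)) (projPt ⊥) =
        (pullback.snd f (strS K R₁)) (x (projPt ⊥)) := rfl
      rw [h2, hxt]
      exact ht'w
    rw [specA_projPt] at h1
    exact congrArg PrimeSpectrum.asIdeal (projPt_injective h1).symm
  refine ⟨projA f R₁ x hx, ?_⟩
  unfold projToPt at hk
  rwa [hw] at hk

end Key

section Main

variable {A : Scheme.{u}} (f : A ⟶ Spec (CommRingCat.of K)) (L : RelativeGroupLaw K f)
  (hc : L.IsCommutative)

/-- **SCH-9**.  `T := pullback f (strS K R₁)`, `p₁ : T ⟶ A`, `p₂ : T ⟶ Spec R₁`.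

(PJ-1) For a `K`-algebra `S` and `x : Spec S ⟶ T` with `x ≫ p₁ ≫ f = strS K S` let
`toPt x : (𝔸 × Spec R₁)(S)` be the pair `(x ≫ p₁, the algebra hom of x ≫ p₂)` (`Spec.preimage`; it is a
`K`-algebra hom by `Spec.map_injective`).  `toPt (specA φ ≫ x) = map φ (toPt x)`; every pair `(a, w)` is
`toPt (pullback.lift a.1 (specA w) _)`.

(PJ-2) `F := {t : T | ∃ (k' : Type u) (_ : Field k') (_ : Algebra K k') (x : Spec k' ⟶ T) (hx), x.base pt = t ∧
k ≤ finrank k' (𝓗.H (toPt x hx))}` is closed.  It is enough to show that `hW.fromSpec ⁻¹' F` is closed for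
every affine open `W` of `T` (open cover).  `R := Γ(T, W)` with the `K`-algebra structure given by
`hW.fromSpec ≫ p₁ ≫ f`, `H_R := 𝓗.H (toPt hW.fromSpec)`, a finite `R`-module.  A field valued point `x` with
image in `W` factors through `Spec R` (`IsOpenImmersion.lift`), i.e. `x = specA e ≫ hW.fromSpec`,
`e : R →ₐ[K] k'`, and the image point is `ker e`.  `𝓗.isBC e` and `IsBC.finrank_eq` (`Alg/SemiBC.lean`):
`finrank k' (𝓗.H (toPt x)) = finrank κ(p) (κ(p) ⊗[R] H_R)`, `p = ker e`.  Every prime `p` of `R` is such a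
kernel (`k' = p.ResidueField`).  So `hW.fromSpec ⁻¹' F = {p | k ≤ finrank κ(p) (κ(p) ⊗ H_R)}`, closed by
`isClosed_finrank_fiber_ge` (`Alg/Semicont.lean`).

(PJ-3) `p₂` is a closed map (`IsProper f`, base change, `UniversallyClosed`).  `J := vanishingIdeal (p₂ '' F)`.
For `w : R₁ →ₐ[K] K`: `J ≤ ker w ↔ (the point ker w) ∈ p₂ '' F`.  If `t ∈ F`, `p₂ t = ker w`, then
`F ∩ p₂ ⁻¹' {ker w}` is a nonempty closed subset of `T` (`ker w` is a closed point), `T` is a Jacobson space
(`LocallyOfFiniteType.jacobsonSpace`), so it contains a closed point `t'` of `T`; `t'` is the image of a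
`K`-point `x : Spec K ⟶ T` (`pointEquivClosedPoint`), `toPt x = (a, w')`, `ker w' = ker w` so `w' = w`
(two `K`-algebra homs `R₁ → K` with the same kernel agree), and `k ≤ finrank K (𝓗.H (a, w))` because the
dimension only depends on the image point (PJ-2).  The converse is clear. -/
theorem hasProj_avf [IsAlgClosed K] [IsProper f] : HasProj (avf f L hc) := by
  intro R₁ _ _ _ 𝓗 k
  have hF := proj_isClosed_F f L hc R₁ 𝓗 k
  have hcl : IsClosed ((pullback.snd f (strS K R₁)) '' projF f L hc R₁ 𝓗 k) :=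
    (pullback.snd f (strS K R₁)).isClosedMap _ hF
  obtain ⟨Z, hZ⟩ : ∃ Z : Set (PrimeSpectrum R₁),
      ∀ P, P ∈ Z ↔ projPt P ∈ (pullback.snd f (strS K R₁)) '' projF f L hc R₁ 𝓗 k :=
    ⟨_, fun _ => Iff.rfl⟩
  have hZcl : IsClosed Z := by
    have : Z = (pullback.snd f (strS K R₁)) '' projF f L hc R₁ 𝓗 k := by
      ext P; exact hZ P
    rw [this]; exact hcl
  refine ⟨PrimeSpectrum.vanishingIdeal Z, fun w => ?_⟩
  have hker : (PrimeSpectrum.comap w.toRingHom (⊥ : PrimeSpectrum K)).asIdeal =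
      RingHom.ker w := rfl
  have hiff : PrimeSpectrum.vanishingIdeal Z ≤ RingHom.ker w ↔
      PrimeSpectrum.comap w.toRingHom (⊥ : PrimeSpectrum K) ∈ Z := by
    have h1 : PrimeSpectrum.comap w.toRingHom (⊥ : PrimeSpectrum K) ∈ Z ↔
        PrimeSpectrum.comap w.toRingHom (⊥ : PrimeSpectrum K) ∈
          PrimeSpectrum.zeroLocus (PrimeSpectrum.vanishingIdeal Z : Set R₁) := by
      rw [PrimeSpectrum.zeroLocus_vanishingIdeal_eq_closure, hZcl.closure_eq]
    rw [h1, PrimeSpectrum.mem_zeroLocus, hker]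
    rfl
  rw [hiff, hZ]
  constructor
  · rintro ⟨a, hk⟩
    exact proj_forward f L hc R₁ 𝓗 k w a hk
  · intro h
    exact proj_backward f L hc R₁ 𝓗 k w h

end Main

end Fermat.Agent.S26
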