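/-
S26 / Sch / Contract : what block SCH has to deliver.  SKELETON (helper26; wired by helper50).
-/
import Fermat.Agent.S26.Sch.AVF
import Fermat.Agent.S26.AV.Geo
import Fermat.Agent.S26.Sch.GeoOf
import Fermat.Agent.S26.Sch.Proj
import Fermat.Agent.S26.Sch.CD.Main

set_option autoImplicit false

open CategoryTheory CategoryTheory.Limits AlgebraicGeometry NeronModelInfra GoodReductionJacobian

universe u

namespace Fermat.Agent.S26

variable {K : Type u} [Field K] [IsAlgClosed K] {A : Scheme.{u}} (f : A ⟶ Spec (CommRingCat.of K))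
  (L : RelativeGroupLaw K f) (hc : L.IsCommutative)

/-- (SCH-A) the étale chart at the origin and its properties -/
noncomputable def geoOfScheme (hA : AbelianSchemePropertyBundle K f) (g : ℕ)
    [SmoothOfRelativeDimension g f] : Geo (avf f L hc) g := geoOf f L hc hA g

/-- (SCH-B) properness -/
theorem hasProj_of_scheme (hA : AbelianSchemePropertyBundle K f) : HasProj (avf f L hc) :=
  haveI := hA.proper
  hasProj_avf f L hc

/-- (SCH-C) prime divisors are Cartier and define line bundles -/
theorem exists_cartDiv (hA : AbelianSchemePropertyBundle K f) (g : ℕ)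
    [SmoothOfRelativeDimension g f] (P : Ideal (geoOfScheme f L hc hA g).R₀) [P.IsPrime]
    (htr : Algebra.trdeg K ((geoOfScheme f L hc hA g).R₀ ⧸ P) + 1 = g) :
    Nonempty (CartDiv (geoOfScheme f L hc hA g) P) :=
  nonempty_cartDiv f L hc hA g (hP := ‹P.IsPrime›) P htr

end Fermat.Agent.S26
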